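import Fermat.Agent.ArtinL.Defs
import Mathlib.Analysis.SpecialFunctions.Trigonometric.Deriv

/-!
# The inequality `3 + 4 cos θ + cos 2θ ≥ 0` for a Dedekind zeta function

`3 log |ζ_K σ| + 4 log |ζ_K (σ + it)| + log |ζ_K (σ + 2it)|` is decreasing in `σ > 1`.
-/

set_option autoImplicit false
set_option linter.style.haveILetI false

noncomputable section

open NumberField IsDedekindDomain Complex
open FA.ArtinL (artinL artinL_one artinLog term coef_one summable_term)
open scoped Real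

namespace FA.DedekindZF

variable (K : Type*) [Field K] [NumberField K]

/-- `log |ζ_K (σ + it)|`. -/
def logZeta (σ t : ℝ) : ℝ := Real.log ‖dedekindZeta K ((σ : ℂ) + t * I)‖

theorem term_re (σ t : ℝ) (p : HeightOneSpectrum (𝓞 K) × ℕ) :
    (term (fun _ : K ≃ₐ[K] K => (1 : ℂ)) ((σ : ℂ) + t * I) p).re =
      Real.exp (-(σ * ((p.2 + 1 : ℕ) * Real.log (Ideal.absNorm p.1.asIdeal : ℝ)))) *
        Real.cos (t * ((p.2 + 1 : ℕ) * Real.log (Ideal.absNorm p.1.asIdeal : ℝ))) / (p.2 + 1 : ℕ) := by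
  have hN : ((Ideal.absNorm p.1.asIdeal : ℕ) : ℂ) ≠ 0 :=
    Nat.cast_ne_zero.2 (by have := FA.Ext.two_le_absNorm p.1; omega)
  rw [term, coef_one, one_mul, cpow_def_of_ne_zero hN, ← natCast_log, ← Complex.exp_nat_mul,
    show ((p.2 : ℂ) + 1) = ((p.2 + 1 : ℕ) : ℂ) by push_cast; rfl, Complex.div_natCast_re, Complex.exp_re]
  set m : ℕ := p.2 + 1
  set l := Real.log (Ideal.absNorm p.1.asIdeal : ℝ)
  have e1 : ((m : ℂ) * ((l : ℂ) * -((σ : ℂ) + t * I))).re = -(σ * (m * l)) := by simp; ring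
  have e2 : ((m : ℂ) * ((l : ℂ) * -((σ : ℂ) + t * I))).im = -(t * (m * l)) := by simp; ring
  rw [e1, e2, Real.cos_neg]

theorem hasSum_logZeta {σ : ℝ} (hσ : 1 < σ) (t : ℝ) :
    HasSum (fun p => (term (fun _ : K ≃ₐ[K] K => (1 : ℂ)) ((σ : ℂ) + t * I) p).re) (logZeta K σ t) := by
  have hs : 1 < ((σ : ℂ) + t * I).re := by simpa using hσ
  rw [logZeta, ← artinL_one (L := K) hs, artinL, Complex.norm_exp, Real.log_exp, artinLog]
  exact Complex.hasSum_re (summable_term hs _).hasSum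

/-- **The inequality.** -/
theorem three_four_one {x y : ℝ} (hx : 1 < x) (hxy : x ≤ y) (t : ℝ) :
    3 * logZeta K y 0 + 4 * logZeta K y t + logZeta K y (2 * t) ≤
      3 * logZeta K x 0 + 4 * logZeta K x t + logZeta K x (2 * t) := by
  have hy : 1 < y := hx.trans_le hxy
  refine hasSum_le (fun p => ?_)
    ((((hasSum_logZeta K hy 0).mul_left 3).add ((hasSum_logZeta K hy t).mul_left 4)).add
      (hasSum_logZeta K hy (2 * t)))
    ((((hasSum_logZeta K hx 0).mul_left 3).add ((hasSum_logZeta K hx t).mul_left 4)).add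
      (hasSum_logZeta K hx (2 * t)))
  simp only [term_re, zero_mul, Real.cos_zero]
  set m : ℕ := p.2 + 1
  set v := (m : ℝ) * Real.log (Ideal.absNorm p.1.asIdeal : ℝ)
  have hv : 0 ≤ v := mul_nonneg (Nat.cast_nonneg _) (Real.log_natCast_nonneg _)
  have hexp : Real.exp (-(y * v)) ≤ Real.exp (-(x * v)) :=
    Real.exp_le_exp.2 (neg_le_neg (mul_le_mul_of_nonneg_right hxy hv))
  have hnn : 0 ≤ 3 + 4 * Real.cos (t * v) + Real.cos (2 * t * v) := by
    rw [show 2 * t * v = 2 * (t * v) by ring, Real.cos_two_mul]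
    nlinarith [sq_nonneg (Real.cos (t * v) + 1)]
  have hm : (0 : ℝ) ≤ (m : ℝ) := Nat.cast_nonneg _
  calc _ = Real.exp (-(y * v)) * (3 + 4 * Real.cos (t * v) + Real.cos (2 * t * v)) / m := by ring
    _ ≤ Real.exp (-(x * v)) * (3 + 4 * Real.cos (t * v) + Real.cos (2 * t * v)) / m :=
        div_le_div_of_nonneg_right (mul_le_mul_of_nonneg_right hexp hnn) hm
    _ = _ := by ring

/-- At `t = 0`: the zeta function decreases. -/
theorem logZeta_zero_anti {x y : ℝ} (hx : 1 < x) (hxy : x ≤ y) : logZeta K y 0 ≤ logZeta K x 0 := by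
  have h := three_four_one K hx hxy 0
  rw [mul_zero] at h
  linarith

end FA.DedekindZF
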