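import Fermat.Agent.DedekindZeroFree.Growth
import Fermat.Agent.DedekindZeroFree.ThreeFourOne
import Fermat.Agent.StarkZero.Jensen
import Fermat.Agent.StarkZero.Order

/-!
# The zero-free region, uniform in the field

For `s = β + iγ` let `L = 1 + log |d| + n log (|γ| + 3)`. A zero of `(s - 1) ζ_K` with
`1 - β ≤ c / L` has `|γ| = O(c / L₀)` by `3 + 4 cos + cos 2 ≥ 0`, and two of these would make
`ζ_K` increase to the right of `1`: so there is at most one, real and simple. `c` is absolute.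
-/

set_option autoImplicit false
set_option linter.style.haveILetI false

noncomputable section

universe u

open NumberField Module Complex Filter Topology Set Metric
open FA.HeckeBS
open scoped Real Classical ComplexConjugate

namespace FA.DedekindZF

/-- The constant in the variation of `log |ζ_K|`. -/
def varA : ℝ := 4 / 3 * (10 * growA + 2 * (eulerConst 2 + 3))

/-- **The constant of the zero-free region**, absolute. -/
def zfrC : ℝ := 1 / (20000 * varA)

theorem eulerConst_nonneg (x : ℝ) : 0 ≤ eulerConst x :=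
  mul_nonneg zero_le_two (tsum_nonneg fun _ => Real.rpow_nonneg (Nat.cast_nonneg _) _)

theorem one_le_varA : 1 ≤ varA := by
  have := eulerConst_nonneg 2
  have := eulerConst_nonneg 5
  rw [varA, growA]; linarith

theorem zfrC_pos : 0 < zfrC := by have := one_le_varA; unfold zfrC; positivity

theorem eulerConst_anti {x y : ℝ} (hx : 1 < x) (hxy : x ≤ y) : eulerConst y ≤ eulerConst x := by
  refine mul_le_mul_of_nonneg_left ((Real.summable_nat_rpow.2 (by linarith)).tsum_le_tsum (fun m => ?_)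
    (Real.summable_nat_rpow.2 (by linarith))) zero_le_two
  rcases Nat.eq_zero_or_pos m with rfl | hm
  · simp [Real.zero_rpow (by linarith : -y ≠ 0), Real.zero_rpow (by linarith : -x ≠ 0)]
  · exact Real.rpow_le_rpow_of_exponent_le (Nat.one_le_cast.2 hm) (neg_le_neg hxy)

/-- Differences of `log |x + i h|`. -/
theorem log_norm_line_le {x y h : ℝ} (hx : x ≠ 0) (hy : y ≠ 0) :
    Real.log ‖(x : ℂ) + h * I‖ - Real.log ‖(y : ℂ) + h * I‖ ≤
      (x ^ 2 - y ^ 2) / (2 * (y ^ 2 + h ^ 2)) := by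
  have hnx : (0 : ℝ) < x ^ 2 + h ^ 2 := by positivity
  have hny : (0 : ℝ) < y ^ 2 + h ^ 2 := by positivity
  rw [Complex.norm_add_mul_I, Complex.norm_add_mul_I, Real.log_sqrt hnx.le, Real.log_sqrt hny.le,
    ← sub_div, ← Real.log_div hnx.ne' hny.ne']
  have h1 := Real.log_le_sub_one_of_pos (div_pos hnx hny)
  rw [div_sub_one hny.ne'] at h1
  rw [show (x ^ 2 - y ^ 2) / (2 * (y ^ 2 + h ^ 2)) = (x ^ 2 + h ^ 2 - (y ^ 2 + h ^ 2)) / (y ^ 2 + h ^ 2) / 2
    by field_simp; ring]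
  linarith

variable (K : Type u) [Field K] [NumberField K]

theorem height_zero_le (t : ℝ) : height K 0 ≤ height K t := by
  refine add_le_add le_rfl (mul_le_mul_of_nonneg_left ?_ (Nat.cast_nonneg _))
  exact Real.log_le_log (by norm_num) (by rw [abs_zero]; linarith [abs_nonneg t])

theorem height_neg (t : ℝ) : height K (-t) = height K t := by rw [height, height, abs_neg]

theorem height_le_two_mul {s t : ℝ} (h : |s| ≤ |t| + 3 ∨ |s| ≤ 2 * |t|) :
    height K s ≤ 2 * height K t := by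
  have hD : 0 ≤ Real.log (((discr K).natAbs : ℕ) : ℝ) :=
    Real.log_nonneg (Nat.one_le_cast.2 (Int.natAbs_pos.2 (discr_ne_zero K)))
  have hle : Real.log (|s| + 3) ≤ 2 * Real.log (|t| + 3) := by
    rw [show 2 * Real.log (|t| + 3) = Real.log ((|t| + 3) ^ 2) by rw [Real.log_pow]; norm_num]
    refine Real.log_le_log (by positivity) ?_
    rcases h with h | h <;> nlinarith [abs_nonneg t]
  have := mul_le_mul_of_nonneg_left hle (Nat.cast_nonneg (finrank ℚ K) : (0 : ℝ) ≤ _)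
  rw [height, height]
  linarith

variable {K} {E : ℂ → ℂ} (hE : Differentiable ℂ E)
  (hEL : ∀ s : ℂ, 1 < s.re → E s = (s - 1) * dedekindZeta K s)

include hE hEL in
theorem cleared_ne_zero {s : ℂ} (hs : 1 ≤ s.re) : E s ≠ 0 := by
  obtain ⟨E', hE', hEL', h0⟩ := FA.ZetaDivisibility.exists_zeta_cleared K
  rw [FA.ZetaDivisibility.eq_of_eqOn_halfPlane hE hE' fun z hz => by rw [hEL z hz, hEL' z hz]]
  exact h0 s hs

include hE hEL in
theorem cleared_conj (s : ℂ) : E (conj s) = conj (E s) := by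
  have hd : Differentiable ℂ fun z => conj (E (conj z)) := fun z => by
    have h := (hE (conj z)).conj_conj
    rwa [conj_conj] at h
  have h := congrFun (FA.ZetaDivisibility.eq_of_eqOn_halfPlane hd hE fun z hz => by
    have hz' : 1 < (conj z).re := by simpa using hz
    rw [hEL z hz, hEL _ hz', map_mul, map_sub, conj_conj, map_one,
      ← FA.ArtinL.artinL_one (L := K) hz', ← FA.ArtinL.artinL_one (L := K) hz,
      ← FA.StarkZero.artinL_conj, conj_conj]
    simp) (conj s)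
  simp only [conj_conj] at h
  exact h.symm

/-- The variation of `log |g|`, `g` the cleared zeta function over a product of `z - ρ`. -/
theorem variation_le {g : ℂ → ℂ} (hg : Differentiable ℂ g) {a γ : ℝ} (ha : 0 < a) (ha2 : a ≤ 1 / 10)
    (hzero : ∀ z, g z = 0 → z.re ≤ 1)
    (hsphere : ∀ z ∈ sphere (((1 + a : ℝ) : ℂ) + γ * I) 3, ‖g z‖ ≤ ‖E z‖)
    (hlow : -Real.log ‖g (((1 + a : ℝ) : ℂ) + γ * I + 1)‖ ≤ (eulerConst 2 + 3) * height K γ)
    (hE : Differentiable ℂ E) (hEL : ∀ s : ℂ, 1 < s.re → E s = (s - 1) * dedekindZeta K s) :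
    Real.log ‖g (((1 + a - a / 10 : ℝ) : ℂ) + γ * I)‖ - Real.log ‖g (((1 + a : ℝ) : ℂ) + γ * I)‖ ≤
      a / 10 * (varA * height K γ) := by
  set c : ℂ := ((1 + a : ℝ) : ℂ) + γ * I
  have hcre : c.re = 1 + a := by simp [c]
  have hne : ∀ z : ℂ, 1 < z.re → g z ≠ 0 := fun z hz h0 => by have := hzero z h0; linarith
  have hct : c - ((a / 10 : ℝ) : ℂ) = ((1 + a - a / 10 : ℝ) : ℂ) + γ * I := by
    simp only [c]; push_cast; ring
  have hM : ∀ z ∈ sphere c 3, log⁺ ‖g z‖ ≤ 2 * growA * height K γ := fun z hz => by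
    refine (Real.posLog_le_posLog (norm_nonneg _) (hsphere z hz)).trans ?_
    rw [mem_sphere, dist_eq_norm] at hz
    have h1 := abs_le.1 ((Complex.abs_re_le_norm (z - c)).trans hz.le)
    have h2 := abs_le.1 ((Complex.abs_im_le_norm (z - c)).trans hz.le)
    rw [sub_re, hcre] at h1
    simp only [c, sub_im, add_im, ofReal_im, mul_im, I_re, I_im, ofReal_re, mul_zero, mul_one, zero_add,
      add_zero] at h2
    refine (posLog_cleared_le K hE hEL (z := z) ⟨by linarith, by linarith⟩).trans ?_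
    have hh : height K z.im ≤ 2 * height K γ := height_le_two_mul K (Or.inl (abs_le.2
      ⟨by linarith [abs_le.1 (le_refl |γ|)], by linarith [abs_le.1 (le_refl |γ|)]⟩))
    have := eulerConst_nonneg 5
    rw [mul_right_comm, mul_comm 2]
    refine (mul_le_mul_of_nonneg_left hh (by rw [growA]; linarith)).trans (le_of_eq ?_)
    ring
  have h := FA.StarkZero.log_norm_sub_le_shift hg (c := c) (t := a / 10) (M := 2 * growA * height K γ)
    (by positivity) (by linarith) (fun z hz => by rw [hcre]; linarith [hzero z hz]) (hne c (by linarith))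
    (hne _ (by simp [hcre]; linarith)) (hne _ (by simp [hcre]; linarith)) hM
  rw [hct] at h
  refine h.trans ?_
  rw [varA]
  nlinarith [mul_le_mul_of_nonneg_left hlow (by positivity : (0 : ℝ) ≤ a / 10)]

include hEL in
/-- At `σ + 1` the cleared zeta function is not small. -/
theorem neg_log_cleared_le {a : ℝ} (ha : 0 < a) (γ : ℝ) :
    -Real.log ‖E (((1 + a : ℝ) : ℂ) + γ * I + 1)‖ ≤ eulerConst 2 * height K γ := by
  set s : ℂ := ((1 + a : ℝ) : ℂ) + γ * I + 1
  have hre : s.re = 2 + a := by simp [s]; ring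
  have hs : 1 < s.re := by linarith
  have h1 : 1 ≤ ‖s - 1‖ := le_trans (by simp [hre]; linarith) (Complex.re_le_norm (s - 1))
  have hz := (norm_dedekindZeta_bounds (K := K) hs).1
  have hz0 : 0 < ‖dedekindZeta K s‖ := (Real.exp_pos _).trans_le hz
  have hlz := Real.log_le_log (Real.exp_pos _) hz
  rw [Real.log_exp] at hlz
  rw [hEL s hs, norm_mul, Real.log_mul (by linarith) hz0.ne']
  have := Real.log_nonneg h1
  have h2 : eulerConst s.re ≤ eulerConst 2 := eulerConst_anti one_lt_two (by linarith)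
  have h3 := mul_le_mul (finrank_le_height K γ) h2 (eulerConst_nonneg _) (zero_le_one.trans (one_le_height K γ))
  linarith

include hE hEL in
theorem logZeta_eq {σ : ℝ} (hσ : 1 < σ) (t : ℝ) :
    logZeta K σ t = Real.log ‖E ((σ : ℂ) + t * I)‖ - Real.log ‖((σ - 1 : ℝ) : ℂ) + t * I‖ := by
  have hs : 1 < ((σ : ℂ) + t * I).re := by simpa using hσ
  have h := cleared_ne_zero hE hEL hs.le
  rw [hEL _ hs, mul_ne_zero_iff] at h
  rw [hEL _ hs, norm_mul, Real.log_mul (norm_ne_zero_iff.2 h.1) (norm_ne_zero_iff.2 h.2), logZeta,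
    show ((σ - 1 : ℝ) : ℂ) + t * I = (σ : ℂ) + t * I - 1 by push_cast; ring]
  ring

include hE hEL in
/-- The variation of `log |ζ_K|` on a horizontal segment. -/
theorem logZeta_variation {a γ : ℝ} (ha : 0 < a) (ha2 : a ≤ 1 / 10) :
    logZeta K (1 + a - a / 10) γ - logZeta K (1 + a) γ ≤ a / 10 * (varA * height K γ) +
      (Real.log ‖((a : ℝ) : ℂ) + γ * I‖ - Real.log ‖((a - a / 10 : ℝ) : ℂ) + γ * I‖) := by
  rw [logZeta_eq hE hEL (by linarith), logZeta_eq hE hEL (by linarith),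
    show (1 + a - 1 : ℝ) = a by ring, show (1 + a - a / 10 - 1 : ℝ) = a - a / 10 by ring]
  have h := variation_le hE (a := a) (γ := γ) ha ha2
    (fun z hz => (not_lt.1 fun h => cleared_ne_zero hE hEL h.le hz)) (fun z _ => le_rfl)
    ((neg_log_cleared_le hEL ha γ).trans (mul_le_mul_of_nonneg_right (by linarith)
      (zero_le_one.trans (one_le_height K γ)))) hE hEL
  linarith

theorem log_pole_zero {a : ℝ} (ha : 0 < a) :
    Real.log ‖((a : ℝ) : ℂ) + ((0 : ℝ) : ℂ) * I‖ - Real.log ‖((a - a / 10 : ℝ) : ℂ) + ((0 : ℝ) : ℂ) * I‖ ≤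
      1 / 9 := by
  simp only [ofReal_zero, zero_mul, add_zero, norm_real, Real.norm_of_nonneg ha.le,
    Real.norm_of_nonneg (show 0 ≤ a - a / 10 by linarith)]
  rw [← Real.log_div ha.ne' (by linarith)]
  refine (Real.log_le_sub_one_of_pos (div_pos ha (by linarith))).trans (le_of_eq ?_)
  field_simp
  ring

theorem log_pole_far {a γ : ℝ} (ha : 0 < a) (hγ : 10 * a ≤ |γ|) :
    Real.log ‖((a : ℝ) : ℂ) + γ * I‖ - Real.log ‖((a - a / 10 : ℝ) : ℂ) + γ * I‖ ≤ 1 / 1000 := by
  refine (log_norm_line_le ha.ne' (by linarith)).trans ?_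
  have h2 : (10 * a) ^ 2 ≤ γ ^ 2 := by
    rw [← sq_abs γ]; exact pow_le_pow_left₀ (by positivity) hγ 2
  have h3 : 0 < (a - a / 10) ^ 2 := pow_pos (by linarith) 2
  rw [div_le_iff₀ (by positivity)]
  nlinarith

include hE hEL in
/-- **A zero near `1` is near the real axis.** -/
theorem abs_im_lt {ρ : ℂ} (h0 : E ρ = 0) (hρ : 1 - zfrC / height K ρ.im ≤ ρ.re) :
    |ρ.im| < 10 * (1 / (1000 * (varA * height K 0))) := by
  set γ := ρ.im
  set β := ρ.re
  have hA := one_le_varA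
  have hL := one_le_height K γ
  have hL0 := height_zero_le K γ
  have hL00 := one_le_height K 0
  set a := 1 / (1000 * (varA * height K γ)) with ha'
  have hAL : 1 ≤ varA * height K γ := one_le_mul_of_one_le_of_one_le hA hL
  have ha : 0 < a := by positivity
  have ha2 : a ≤ 1 / 10 := by rw [ha']; exact one_div_le_one_div_of_le (by norm_num) (by linarith)
  have hAa : varA * height K γ * a = 1 / 1000 := by rw [ha']; field_simp
  have hAa0 : varA * height K 0 * a ≤ 1 / 1000 :=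
    hAa ▸ mul_le_mul_of_nonneg_right (mul_le_mul_of_nonneg_left hL0 (by linarith)) ha.le
  have hAa2 : varA * height K (2 * γ) * a ≤ 2 / 1000 := by
    have h2 : height K (2 * γ) ≤ 2 * height K γ := height_le_two_mul K (Or.inr (by rw [abs_mul, abs_two]))
    have := mul_le_mul_of_nonneg_right (mul_le_mul_of_nonneg_left h2 (by linarith : (0 : ℝ) ≤ varA)) ha.le
    linarith
  by_contra hγ
  push Not at hγ
  have hγa : 10 * a ≤ |γ| := by
    refine le_trans (mul_le_mul_of_nonneg_left ?_ (by norm_num)) hγ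
    rw [ha']
    exact one_div_le_one_div_of_le (by positivity)
      (mul_le_mul_of_nonneg_left (mul_le_mul_of_nonneg_left hL0 (by linarith)) (by norm_num))
  have hβ1 : β < 1 := not_le.1 fun h => cleared_ne_zero hE hEL h h0
  have hzone : 1 - β ≤ a / 20 := by
    have e : zfrC / height K γ = a / 20 := by rw [zfrC, ha']; field_simp; ring
    linarith
  -- the function without the zero
  set g := dslope E ρ
  have hg : Differentiable ℂ g := differentiableOn_univ.1
    ((differentiableOn_dslope univ_mem).2 hE.differentiableOn)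
  have hfac : ∀ z, E z = (z - ρ) * g z := fun z => by
    rw [← smul_eq_mul, sub_smul_dslope, h0, sub_zero]
  have hρeq : ρ = (β : ℂ) + γ * I := (Complex.re_add_im ρ).symm
  have hgzero : ∀ z, g z = 0 → z.re ≤ 1 := fun z hz =>
    not_lt.1 fun h => cleared_ne_zero hE hEL h.le (by rw [hfac, hz, mul_zero])
  have hdiff : ∀ σ : ℝ, 1 < σ → Real.log ‖E ((σ : ℂ) + γ * I)‖ =
      Real.log (σ - β) + Real.log ‖g ((σ : ℂ) + γ * I)‖ := fun σ hσ => by
    rw [hfac, norm_mul, Real.log_mul, hρeq, show (σ : ℂ) + γ * I - ((β : ℂ) + γ * I) = ((σ - β : ℝ) : ℂ) by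
      push_cast; ring, norm_real, Real.norm_of_nonneg (by linarith)]
    · rw [norm_ne_zero_iff, hρeq, show (σ : ℂ) + γ * I - ((β : ℂ) + γ * I) = ((σ - β : ℝ) : ℂ) by
        push_cast; ring, ofReal_ne_zero]
      linarith
    · rw [norm_ne_zero_iff]
      intro h
      have := hgzero _ h
      simp at this
      linarith
  have hV := variation_le hg (E := E) (a := a) (γ := γ) ha ha2 hgzero
    (fun z hz => by
      rw [hfac z, norm_mul]
      refine le_mul_of_one_le_left (norm_nonneg _) ?_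
      rw [mem_sphere, dist_eq_norm] at hz
      have h1 : ‖z - (((1 + a : ℝ) : ℂ) + γ * I)‖ ≤ ‖z - ρ‖ + ‖((1 + a - β : ℝ) : ℂ)‖ := by
        rw [show z - (((1 + a : ℝ) : ℂ) + γ * I) = (z - ρ) - ((1 + a - β : ℝ) : ℂ) by
          rw [hρeq]; push_cast; ring]
        exact norm_sub_le _ _
      rw [hz, norm_real, Real.norm_of_nonneg (by linarith)] at h1
      linarith)
    (by
      have e : ((1 + a : ℝ) : ℂ) + γ * I + 1 = ((2 + a : ℝ) : ℂ) + γ * I := by push_cast; ring
      have h := neg_log_cleared_le hEL ha γ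
      rw [e, hdiff _ (by linarith)] at h
      rw [e]
      have := Real.log_le_sub_one_of_pos (show 0 < 2 + a - β by linarith)
      linarith)
    hE hEL
  -- the three terms
  have h341 := three_four_one K (show 1 < 1 + a - a / 10 by linarith) (show 1 + a - a / 10 ≤ 1 + a by linarith) γ
  have X0 := logZeta_variation hE hEL (γ := 0) ha ha2
  have X2 := logZeta_variation hE hEL (γ := 2 * γ) ha ha2
  have P0 := log_pole_zero ha
  have P1 := log_pole_far ha hγa
  have P2 := log_pole_far (γ := 2 * γ) ha (by rw [abs_mul, abs_two]; linarith [abs_nonneg γ])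
  have X1 : logZeta K (1 + a - a / 10) γ - logZeta K (1 + a) γ ≤
      a / 10 * (varA * height K γ) + -(a / 10 / (1 + a - β)) +
        (Real.log ‖((a : ℝ) : ℂ) + γ * I‖ - Real.log ‖((a - a / 10 : ℝ) : ℂ) + γ * I‖) := by
    rw [logZeta_eq hE hEL (by linarith), logZeta_eq hE hEL (by linarith), hdiff _ (by linarith),
      hdiff _ (by linarith), show (1 + a - 1 : ℝ) = a by ring,
      show (1 + a - a / 10 - 1 : ℝ) = a - a / 10 by ring]
    have hz : Real.log (1 + a - a / 10 - β) - Real.log (1 + a - β) ≤ -(a / 10 / (1 + a - β)) := by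
      rw [← Real.log_div (by linarith) (by linarith)]
      refine (Real.log_le_sub_one_of_pos (div_pos (by linarith) (by linarith))).trans (le_of_eq ?_)
      rw [div_sub_one (by linarith)]
      ring
    linarith
  have hzero : 2 / 21 ≤ a / 10 / (1 + a - β) := by
    rw [le_div_iff₀ (by linarith)]; linarith
  linarith

include hE hEL in
/-- **Two zeros near `1` cannot be.** -/
theorem two_zeros_false {ρ₁ ρ₂ : ℂ} (hρ₁ : 1 - zfrC / height K ρ₁.im ≤ ρ₁.re)
    (hρ₂ : 1 - zfrC / height K ρ₂.im ≤ ρ₂.re) (h₁ : E ρ₁ = 0) (h₂ : E ρ₂ = 0) {g : ℂ → ℂ}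
    (hg : Differentiable ℂ g) (hfac : ∀ z, E z = (z - ρ₁) * ((z - ρ₂) * g z)) : False := by
  have i₁ := abs_im_lt hE hEL h₁ hρ₁
  have i₂ := abs_im_lt hE hEL h₂ hρ₂
  have hA := one_le_varA
  have hL0 := one_le_height K 0
  set a₀ := 1 / (1000 * (varA * height K 0)) with ha'
  have hAL : 1 ≤ varA * height K 0 := one_le_mul_of_one_le_of_one_le hA hL0
  have ha0 : 0 < a₀ := by positivity
  have ha01 : a₀ ≤ 1 / 1000 := by rw [ha']; exact one_div_le_one_div_of_le (by norm_num) (by linarith)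
  have hAa : varA * height K 0 * a₀ = 1 / 1000 := by rw [ha']; field_simp
  have hzone : ∀ ρ : ℂ, E ρ = 0 → 1 - zfrC / height K ρ.im ≤ ρ.re → 1 - a₀ / 20 ≤ ρ.re ∧ ρ.re < 1 :=
      fun ρ h0 hρ => by
    refine ⟨le_trans (sub_le_sub_left ?_ 1) hρ, not_le.1 fun h => cleared_ne_zero hE hEL h h0⟩
    refine (div_le_div_of_nonneg_left zfrC_pos.le (by linarith) (height_zero_le K _)).trans (le_of_eq ?_)
    rw [zfrC, ha']; field_simp; ring
  obtain ⟨b₁, b₁'⟩ := hzone ρ₁ h₁ hρ₁
  obtain ⟨b₂, b₂'⟩ := hzone ρ₂ h₂ hρ₂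
  set a := 100 * a₀
  have ha : 0 < a := by positivity
  have ha2 : a ≤ 1 / 10 := by simp only [a]; linarith
  have hgzero : ∀ z, g z = 0 → z.re ≤ 1 := fun z hz =>
    not_lt.1 fun h => cleared_ne_zero hE hEL h.le (by rw [hfac, hz, mul_zero, mul_zero])
  have hdiff : ∀ σ : ℝ, 1 < σ → Real.log ‖E (σ : ℂ)‖ =
      Real.log ‖((σ - ρ₁.re : ℝ) : ℂ) + ((-ρ₁.im : ℝ) : ℂ) * I‖ +
        Real.log ‖((σ - ρ₂.re : ℝ) : ℂ) + ((-ρ₂.im : ℝ) : ℂ) * I‖ + Real.log ‖g (σ : ℂ)‖ := fun σ hσ => by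
    have e : ∀ ρ : ℂ, ((σ - ρ.re : ℝ) : ℂ) + ((-ρ.im : ℝ) : ℂ) * I = (σ : ℂ) - ρ := fun ρ => by
      apply Complex.ext <;> simp
    rw [e, e]
    have hne : E (σ : ℂ) ≠ 0 := cleared_ne_zero hE hEL (by simpa using hσ.le)
    rw [hfac, mul_ne_zero_iff, mul_ne_zero_iff] at hne
    rw [hfac, norm_mul, norm_mul, Real.log_mul (norm_ne_zero_iff.2 hne.1)
      (mul_ne_zero (norm_ne_zero_iff.2 hne.2.1) (norm_ne_zero_iff.2 hne.2.2)),
      Real.log_mul (norm_ne_zero_iff.2 hne.2.1) (norm_ne_zero_iff.2 hne.2.2)]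
    ring
  have hV := variation_le hg (E := E) (a := a) (γ := 0) ha ha2 hgzero
    (fun z hz => by
      rw [hfac z, norm_mul, norm_mul]
      rw [mem_sphere, dist_eq_norm, ofReal_zero, zero_mul, add_zero] at hz
      have hbound : ∀ ρ : ℂ, 1 - a₀ / 20 ≤ ρ.re → ρ.re < 1 → |ρ.im| < 10 * a₀ → 1 ≤ ‖z - ρ‖ :=
          fun ρ p q r => by
        have h1 : ‖z - ((1 + a : ℝ) : ℂ)‖ ≤ ‖z - ρ‖ + ‖ρ - ((1 + a : ℝ) : ℂ)‖ := norm_sub_le_norm_sub_add_norm_sub _ _ _
        have h2 : ‖ρ - ((1 + a : ℝ) : ℂ)‖ ≤ 2 := by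
          refine (Complex.norm_le_abs_re_add_abs_im _).trans ?_
          simp only [sub_re, ofReal_re, sub_im, ofReal_im, sub_zero]
          rw [abs_of_nonpos (by linarith)]
          linarith
        linarith
      calc ‖g z‖ ≤ ‖z - ρ₂‖ * ‖g z‖ := le_mul_of_one_le_left (norm_nonneg _) (hbound ρ₂ b₂ b₂' i₂)
        _ ≤ _ := le_mul_of_one_le_left (by positivity) (hbound ρ₁ b₁ b₁' i₁))
    (by
      have h := neg_log_cleared_le hEL ha 0
      rw [ofReal_zero, zero_mul, add_zero, show ((1 + a : ℝ) : ℂ) + 1 = ((2 + a : ℝ) : ℂ) by push_cast; ring,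
        hdiff _ (by linarith)] at h
      rw [ofReal_zero, zero_mul, add_zero, show ((1 + a : ℝ) : ℂ) + 1 = ((2 + a : ℝ) : ℂ) by push_cast; ring]
      have hb : ∀ ρ : ℂ, 1 - a₀ / 20 ≤ ρ.re → ρ.re < 1 → |ρ.im| < 10 * a₀ →
          Real.log ‖((2 + a - ρ.re : ℝ) : ℂ) + ((-ρ.im : ℝ) : ℂ) * I‖ ≤ 1 := fun ρ p q r => by
        have hx : (0 : ℝ) < 2 + a - ρ.re := by linarith
        have hne : (0 : ℝ) < ‖((2 + a - ρ.re : ℝ) : ℂ) + ((-ρ.im : ℝ) : ℂ) * I‖ := by
          rw [Complex.norm_add_mul_I]; positivity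
        have hle : ‖((2 + a - ρ.re : ℝ) : ℂ) + ((-ρ.im : ℝ) : ℂ) * I‖ ≤ 2 := by
          refine (norm_add_le _ _).trans ?_
          rw [norm_mul, norm_real, norm_real, norm_I, mul_one, Real.norm_of_nonneg hx.le, Real.norm_eq_abs,
            abs_neg]
          linarith
        linarith [Real.log_le_sub_one_of_pos hne]
      have := hb ρ₁ b₁ b₁' i₁
      have := hb ρ₂ b₂ b₂' i₂
      linarith)
    hE hEL
  have hmono := logZeta_zero_anti K (show 1 < 1 + a - a / 10 by linarith)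
    (show 1 + a - a / 10 ≤ 1 + a by linarith)
  have hX : logZeta K (1 + a - a / 10) 0 - logZeta K (1 + a) 0 =
      (Real.log ‖((1 + a - a / 10 - ρ₁.re : ℝ) : ℂ) + ((-ρ₁.im : ℝ) : ℂ) * I‖ -
        Real.log ‖((1 + a - ρ₁.re : ℝ) : ℂ) + ((-ρ₁.im : ℝ) : ℂ) * I‖) +
      (Real.log ‖((1 + a - a / 10 - ρ₂.re : ℝ) : ℂ) + ((-ρ₂.im : ℝ) : ℂ) * I‖ -
        Real.log ‖((1 + a - ρ₂.re : ℝ) : ℂ) + ((-ρ₂.im : ℝ) : ℂ) * I‖) +
      (Real.log ‖g ((1 + a - a / 10 : ℝ) : ℂ)‖ - Real.log ‖g ((1 + a : ℝ) : ℂ)‖) +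
      (Real.log ‖((a : ℝ) : ℂ) + ((0 : ℝ) : ℂ) * I‖ -
        Real.log ‖((a - a / 10 : ℝ) : ℂ) + ((0 : ℝ) : ℂ) * I‖) := by
    rw [logZeta_eq hE hEL (by linarith), logZeta_eq hE hEL (by linarith),
      show (1 + a - 1 : ℝ) = a by ring, show (1 + a - a / 10 - 1 : ℝ) = a - a / 10 by ring]
    simp only [ofReal_zero, zero_mul, add_zero]
    rw [hdiff _ (by linarith), hdiff _ (by linarith)]
    ring
  rw [ofReal_zero, zero_mul, add_zero, add_zero] at hV
  have P0 := log_pole_zero ha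
  have hz : ∀ ρ : ℂ, 1 - a₀ / 20 ≤ ρ.re → ρ.re < 1 → |ρ.im| < 10 * a₀ →
      Real.log ‖((1 + a - a / 10 - ρ.re : ℝ) : ℂ) + ((-ρ.im : ℝ) : ℂ) * I‖ -
        Real.log ‖((1 + a - ρ.re : ℝ) : ℂ) + ((-ρ.im : ℝ) : ℂ) * I‖ ≤ -(9 / 100) := fun ρ p q r => by
    refine (log_norm_line_le (by linarith) (by linarith)).trans ?_
    have hh : ρ.im ^ 2 ≤ (10 * a₀) ^ 2 := by
      rw [← sq_abs ρ.im]; exact pow_le_pow_left₀ (abs_nonneg _) r.le 2
    have hpos : 0 < (1 + a - ρ.re) ^ 2 + (-ρ.im) ^ 2 := by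
      have h1 : 0 < 1 + a - ρ.re := by linarith
      positivity
    rw [div_le_iff₀ (by positivity)]
    simp only [a]
    nlinarith
  have := hz ρ₁ b₁ b₁' i₁
  have := hz ρ₂ b₂ b₂' i₂
  have hAL' : a / 10 * (varA * height K 0) = 1 / 100 := by simp only [a]; linarith
  linarith

include hE hEL in
/-- **At most one zero, real and simple.** -/
theorem zero_free {ρ : ℂ} (h0 : E ρ = 0) (hρ : 1 - zfrC / height K ρ.im ≤ ρ.re) :
    ρ.im = 0 ∧ deriv E ρ ≠ 0 ∧ ∀ ρ' : ℂ, E ρ' = 0 → 1 - zfrC / height K ρ'.im ≤ ρ'.re → ρ' = ρ := by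
  have hd : ∀ {f : ℂ → ℂ}, Differentiable ℂ f → ∀ x : ℂ, Differentiable ℂ (dslope f x) := fun hf x =>
    differentiableOn_univ.1 ((differentiableOn_dslope univ_mem).2 hf.differentiableOn)
  have hfac : ∀ z, E z = (z - ρ) * dslope E ρ z := fun z => by
    rw [← smul_eq_mul, sub_smul_dslope, h0, sub_zero]
  have huniq : ∀ ρ' : ℂ, E ρ' = 0 → 1 - zfrC / height K ρ'.im ≤ ρ'.re → ρ' = ρ := fun ρ' h' hρ' => by
    by_contra hne
    have hz : dslope E ρ ρ' = 0 :=
      (mul_eq_zero.1 ((hfac ρ').symm.trans h')).resolve_left (sub_ne_zero.2 hne)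
    refine two_zeros_false hE hEL hρ hρ' h0 h' (g := dslope (dslope E ρ) ρ') (hd (hd hE ρ) ρ') fun z => ?_
    rw [← smul_eq_mul (z - ρ') _, sub_smul_dslope, hz, sub_zero]
    exact hfac z
  refine ⟨?_, fun hder => ?_, huniq⟩
  · have hc := huniq (conj ρ) (by rw [cleared_conj hE hEL, h0, map_zero]) (by
      rw [conj_im, conj_re, height_neg]; exact hρ)
    have := congrArg Complex.im hc
    rw [conj_im] at this
    linarith
  · refine two_zeros_false hE hEL hρ hρ h0 h0 (g := dslope (dslope E ρ) ρ) (hd (hd hE ρ) ρ) fun z => ?_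
    rw [← smul_eq_mul (z - ρ) (dslope (dslope E ρ) ρ z), sub_smul_dslope, dslope_same, hder, sub_zero]
    exact hfac z

end FA.DedekindZF
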