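import Fermat.Agent.HeckeBS.GammaBounds

/-!
# The Gamma factor of the functional equation between two lines

`Γℝ (1 + it)` and `Γℝ (2 + it)` differ polynomially by the reflection formula, hence so do
`Γℝ (5 + it)` and `Γℝ (-4 + it)`, `Γℝ (6 + it)` and `Γℝ (-3 + it)`; and `1 / Γℝ` grows at most
exponentially in vertical strips.
-/

set_option autoImplicit false
set_option linter.style.haveILetI false

noncomputable section

open Complex
open scoped Real ComplexConjugate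

namespace FA.DedekindZF

theorem norm_sq_Gamma_half (y : ℝ) :
    ‖Complex.Gamma (1 / 2 + y * I)‖ ^ 2 = π / Real.cosh (π * y) := by
  have h := congrArg norm (Complex.Gamma_mul_Gamma_one_sub (1 / 2 + (y : ℂ) * I))
  rw [show 1 - (1 / 2 + (y : ℂ) * I) = conj (1 / 2 + (y : ℂ) * I) by
      simp [Complex.ext_iff]; norm_num, Complex.Gamma_conj, norm_mul, Complex.norm_conj, norm_div,
    show (π : ℂ) * (1 / 2 + (y : ℂ) * I) = ((π * y : ℝ) : ℂ) * I + (π : ℂ) / 2 by push_cast; ring,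
    Complex.sin_add_pi_div_two, Complex.cos_mul_I, norm_real, ← ofReal_cosh, norm_real,
    Real.norm_of_nonneg Real.pi_pos.le, Real.norm_of_nonneg (Real.cosh_pos _).le] at h
  rw [sq, h]

theorem norm_sq_Gamma_one {y : ℝ} (hy : y ≠ 0) :
    ‖Complex.Gamma (1 + y * I)‖ ^ 2 = π * |y| / |Real.sinh (π * y)| := by
  have hz : (y : ℂ) * I ≠ 0 := mul_ne_zero (ofReal_ne_zero.2 hy) I_ne_zero
  have hconj : ‖Complex.Gamma (1 - y * I)‖ = ‖Complex.Gamma (1 + y * I)‖ := by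
    rw [show (1 : ℂ) - y * I = conj (1 + (y : ℂ) * I) by simp [sub_eq_add_neg],
      Complex.Gamma_conj, Complex.norm_conj]
  have h := congrArg (fun z => ‖(y : ℂ) * I * z‖) (Complex.Gamma_mul_Gamma_one_sub ((y : ℂ) * I))
  simp only [← mul_assoc] at h
  rw [← Complex.Gamma_add_one _ hz, add_comm, norm_mul, hconj,
    show (π : ℂ) * (y : ℂ) * I = ((π * y : ℝ) : ℂ) * I by push_cast; ring,
    Complex.sin_mul_I, norm_mul, norm_mul, norm_div, norm_mul, norm_I, mul_one, mul_one, norm_real,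
    norm_real, ← ofReal_sinh, norm_real, Real.norm_eq_abs, Real.norm_eq_abs, Real.norm_eq_abs,
    abs_of_pos Real.pi_pos] at h
  rw [sq, h]
  ring

/-- `x cosh x` and `sinh x`. -/
theorem sinh_cosh_bounds {x : ℝ} (hx : 0 ≤ x) :
    Real.sinh x ≤ x * Real.cosh x ∧ x * Real.cosh x ≤ (1 + x) * Real.sinh x := by
  constructor
  · have h := fun y (hy : y ∈ interior (Set.Ici (0 : ℝ))) => (show HasDerivAt
        (fun z => z * Real.cosh z - Real.sinh z) (y * Real.sinh y) y by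
      exact (((hasDerivAt_id y).mul (Real.hasDerivAt_cosh y)).sub (Real.hasDerivAt_sinh y)).congr_deriv
        (by simp))
    have hm : MonotoneOn (fun z => z * Real.cosh z - Real.sinh z) (Set.Ici 0) :=
      monotoneOn_of_hasDerivWithinAt_nonneg (convex_Ici 0) (by fun_prop)
        (fun y hy => (h y hy).hasDerivWithinAt) fun y hy => by
          rw [interior_Ici] at hy
          exact mul_nonneg (le_of_lt hy) (Real.sinh_nonneg_iff.2 (le_of_lt hy))
    have := hm Set.self_mem_Ici hx hx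
    simp at this
    linarith
  · have h1 := Real.add_one_le_exp (2 * x)
    have h2 : Real.exp x = Real.exp (-x) * Real.exp (2 * x) := by rw [← Real.exp_add]; ring_nf
    have h3 := mul_le_mul_of_nonneg_left h1 (Real.exp_pos (-x)).le
    rw [Real.cosh_eq, Real.sinh_eq]
    nlinarith

theorem Gamma_half_vs_one (y : ℝ) :
    ‖Complex.Gamma (1 / 2 + y * I)‖ ≤ 2 * ‖Complex.Gamma (1 + y * I)‖ ∧
      ‖Complex.Gamma (1 + y * I)‖ ≤ (1 + |y|) * ‖Complex.Gamma (1 / 2 + y * I)‖ := by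
  rcases eq_or_ne y 0 with rfl | hy
  · have hh : ‖Complex.Gamma (1 / 2 + ((0 : ℝ) : ℂ) * I)‖ = Real.sqrt π := by
      rw [show (1 / 2 : ℂ) + ((0 : ℝ) : ℂ) * I = ((1 / 2 : ℝ) : ℂ) by push_cast; ring,
        Complex.Gamma_ofReal, norm_real, Real.Gamma_one_half_eq, Real.norm_of_nonneg (Real.sqrt_nonneg _)]
    rw [hh]
    simp only [ofReal_zero, zero_mul, add_zero, Complex.Gamma_one, norm_one, abs_zero, one_mul, mul_one]
    exact ⟨Real.sqrt_le_iff.2 ⟨zero_le_two, by linarith [Real.pi_lt_four]⟩,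
      Real.one_le_sqrt.2 (by linarith [Real.pi_gt_three])⟩
  have hx : 0 < |π * y| := abs_pos.2 (mul_ne_zero Real.pi_ne_zero hy)
  obtain ⟨b1, b2⟩ := sinh_cosh_bounds hx.le
  have hc : Real.cosh (π * y) = Real.cosh |π * y| := (Real.cosh_abs _).symm
  have hs : |Real.sinh (π * y)| = Real.sinh |π * y| := Real.abs_sinh _
  have hs0 : 0 < Real.sinh |π * y| := Real.sinh_pos_iff.2 hx
  have hc0 := Real.cosh_pos |π * y|
  have hxy : |π * y| = π * |y| := by rw [abs_mul, abs_of_pos Real.pi_pos]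
  have hπ := Real.pi_gt_three
  constructor
  · rw [← pow_le_pow_iff_left₀ (norm_nonneg _) (by positivity) two_ne_zero, mul_pow, norm_sq_Gamma_half,
      norm_sq_Gamma_one hy, hc, hs, mul_div_assoc', div_le_div_iff₀ hc0 hs0, ← hxy]
    calc π * Real.sinh |π * y| ≤ π * (|π * y| * Real.cosh |π * y|) :=
          mul_le_mul_of_nonneg_left b1 Real.pi_pos.le
      _ ≤ 2 ^ 2 * (|π * y| * Real.cosh |π * y|) :=
          mul_le_mul_of_nonneg_right (by linarith [Real.pi_lt_four]) (by positivity)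
      _ = _ := by ring
  · rw [← pow_le_pow_iff_left₀ (norm_nonneg _) (by positivity) two_ne_zero, mul_pow, norm_sq_Gamma_half,
      norm_sq_Gamma_one hy, hc, hs, mul_div_assoc', div_le_div_iff₀ hs0 hc0, ← hxy]
    refine b2.trans (mul_le_mul_of_nonneg_right ?_ hs0.le)
    rw [hxy]
    nlinarith [abs_nonneg y]

theorem norm_Gammaℝ_line (a : ℂ) (t : ℝ) :
    ‖Gammaℝ (a + t * I)‖ = π ^ (-a.re / 2) * ‖Complex.Gamma (a / 2 + ((t / 2 : ℝ) : ℂ) * I)‖ := by
  rw [Gammaℝ_def, norm_mul, norm_cpow_eq_rpow_re_of_pos Real.pi_pos]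
  congr 2
  · simp
  · push_cast; ring_nf

theorem Gammaℝ_one_vs_two (t : ℝ) :
    ‖Gammaℝ (1 + t * I)‖ ≤ 4 * ‖Gammaℝ (2 + t * I)‖ ∧
      ‖Gammaℝ (2 + t * I)‖ ≤ (1 + |t|) * ‖Gammaℝ (1 + t * I)‖ := by
  obtain ⟨h1, h2⟩ := Gamma_half_vs_one (t / 2)
  rw [norm_Gammaℝ_line, norm_Gammaℝ_line, show (2 : ℂ) / 2 = 1 by norm_num]
  simp only [one_re, re_ofNat]
  norm_num only
  have hπ := Real.pi_gt_three
  have hs : π ^ (-(1 / 2) : ℝ) = π ^ (-1 : ℝ) * Real.sqrt π := by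
    rw [Real.sqrt_eq_rpow, ← Real.rpow_add Real.pi_pos]; norm_num
  have hq : 1 ≤ Real.sqrt π ∧ Real.sqrt π ≤ 2 :=
    ⟨Real.one_le_sqrt.2 (by linarith), Real.sqrt_le_iff.2 ⟨zero_le_two, by linarith [Real.pi_lt_four]⟩⟩
  have hp : 0 < π ^ (-1 : ℝ) := Real.rpow_pos_of_pos Real.pi_pos _
  rw [hs]
  constructor
  · calc π ^ (-1 : ℝ) * Real.sqrt π * ‖Complex.Gamma (1 / 2 + ((t / 2 : ℝ) : ℂ) * I)‖
        ≤ π ^ (-1 : ℝ) * 2 * (2 * ‖Complex.Gamma (1 + ((t / 2 : ℝ) : ℂ) * I)‖) :=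
          mul_le_mul (mul_le_mul_of_nonneg_left hq.2 hp.le) h1 (norm_nonneg _) (by positivity)
      _ = _ := by ring
  · calc π ^ (-1 : ℝ) * ‖Complex.Gamma (1 + ((t / 2 : ℝ) : ℂ) * I)‖
        ≤ π ^ (-1 : ℝ) * ((1 + |t|) * (Real.sqrt π * ‖Complex.Gamma (1 / 2 + ((t / 2 : ℝ) : ℂ) * I)‖)) := by
          refine mul_le_mul_of_nonneg_left (h2.trans ?_) hp.le
          refine mul_le_mul ?_ (le_mul_of_one_le_left (norm_nonneg _) hq.1) (norm_nonneg _) (by positivity)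
          rw [abs_div, abs_two]; linarith [abs_nonneg t]
      _ = _ := by ring

/-- The recursion of `1 / Γℝ`. -/
theorem inv_Gammaℝ_eq (z : ℂ) : (Gammaℝ z)⁻¹ = z / (2 * π) * (Gammaℝ (z + 2))⁻¹ := by
  have hπ : (π : ℂ) ≠ 0 := ofReal_ne_zero.2 Real.pi_ne_zero
  rw [Gammaℝ_def, Gammaℝ_def, show -(z + 2) / 2 = -z / 2 + -1 by ring, cpow_add _ _ hπ, cpow_neg_one,
    show (z + 2) / 2 = z / 2 + 1 by ring, mul_inv, mul_inv, mul_inv, inv_inv,
    one_div_Gamma_eq_self_mul_one_div_Gamma_add_one (z / 2)]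
  field_simp

theorem norm_step (a : ℂ) (t : ℝ) :
    ‖(Gammaℝ (a + t * I))⁻¹‖ = ‖a + t * I‖ / (2 * π) * ‖(Gammaℝ (a + 2 + t * I))⁻¹‖ := by
  rw [inv_Gammaℝ_eq, norm_mul, norm_div, norm_mul, norm_real, Real.norm_of_nonneg Real.pi_pos.le,
    RCLike.norm_ofNat, show a + t * I + 2 = a + 2 + t * I by ring]

theorem norm_add_mul_I_le (a : ℂ) (t : ℝ) (h : ‖a‖ ≤ 6) : ‖a + t * I‖ / (2 * π) ≤ |t| + 6 := by
  have h1 : ‖a + t * I‖ ≤ |t| + 6 := by
    refine (norm_add_le _ _).trans ?_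
    rw [norm_mul, norm_I, mul_one, norm_real, Real.norm_eq_abs]
    linarith
  exact (div_le_self (norm_nonneg _) (by linarith [Real.pi_gt_three])).trans h1

/-- `Γℝ (5 + it) / Γℝ (-4 + it)` is polynomial in `t`. -/
theorem ratio_five (t : ℝ) :
    ‖Gammaℝ (5 + t * I)‖ * ‖(Gammaℝ (-4 + t * I))⁻¹‖ ≤ (|t| + 6) ^ 6 := by
  have e1 := norm_step (-4) t
  have e2 := norm_step (-4 + 2) t
  have e3 := norm_step (-4 + 2 + 2) t
  have e4 := norm_step 1 t
  have e5 := norm_step (1 + 2) t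
  norm_num at e1 e2 e3 e4 e5
  have h12 := (Gammaℝ_one_vs_two t).1
  have hn1 : Gammaℝ (1 + t * I) ≠ 0 := Gammaℝ_ne_zero_of_re_pos (by simp)
  have hn3 : Gammaℝ (3 + t * I) ≠ 0 := Gammaℝ_ne_zero_of_re_pos (by simp)
  have hn5 : Gammaℝ (5 + t * I) ≠ 0 := Gammaℝ_ne_zero_of_re_pos (by simp)
  have hn2 : Gammaℝ (2 + t * I) ≠ 0 := Gammaℝ_ne_zero_of_re_pos (by simp)
  set B := |t| + 6
  have hB : 4 ≤ B := by simp only [B]; linarith [abs_nonneg t]
  have hf : ∀ a : ℂ, ‖a‖ ≤ 6 → ‖a + t * I‖ / (2 * π) ≤ B := fun a ha => norm_add_mul_I_le a t ha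
  have hnum : ‖Gammaℝ (5 + t * I)‖ =
      ‖(3 : ℂ) + t * I‖ / (2 * π) * (‖(1 : ℂ) + t * I‖ / (2 * π)) * ‖Gammaℝ (1 + t * I)‖ := by
    have p3 := norm_pos_iff.2 hn3
    have p5 := norm_pos_iff.2 hn5
    have p1 := norm_pos_iff.2 hn1
    field_simp at e4 e5 ⊢
    linear_combination (2 * π) * e5 + ‖(3 : ℂ) + t * I‖ * e4
  rw [hnum, norm_inv, e1, e2]
  rw [show |t| = ‖(0 : ℂ) + t * I‖ by simp] at e3
  rw [e3]
  have hden : ‖Gammaℝ (1 + t * I)‖ * ‖Gammaℝ (2 + t * I)‖⁻¹ ≤ B := by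
    rw [← div_eq_mul_inv, div_le_iff₀ (norm_pos_iff.2 hn2)]
    exact h12.trans (mul_le_mul_of_nonneg_right hB (norm_nonneg _))
  have q3 := hf 3 (by norm_num)
  have q1 := hf 1 (by norm_num)
  have q4 := hf (-4) (by norm_num)
  have q2 := hf (-2) (by norm_num)
  have q0 := hf 0 (by norm_num)
  calc _ = (‖(3 : ℂ) + t * I‖ / (2 * π)) * (‖(1 : ℂ) + t * I‖ / (2 * π)) *
        (‖-(4 : ℂ) + t * I‖ / (2 * π)) * (‖-(2 : ℂ) + t * I‖ / (2 * π)) * (‖(0 : ℂ) + t * I‖ / (2 * π)) *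
        (‖Gammaℝ (1 + t * I)‖ * ‖Gammaℝ (2 + t * I)‖⁻¹) := by ring
    _ ≤ B * B * B * B * B * B := by gcongr
    _ = _ := by ring

/-- `Γℝ (6 + it) / Γℝ (-3 + it)` is polynomial in `t`. -/
theorem ratio_six (t : ℝ) :
    ‖Gammaℝ (6 + t * I)‖ * ‖(Gammaℝ (-3 + t * I))⁻¹‖ ≤ (|t| + 6) ^ 6 := by
  have e1 := norm_step (-3) t
  have e2 := norm_step (-3 + 2) t
  have e4 := norm_step 2 t
  have e5 := norm_step (2 + 2) t
  norm_num at e1 e2 e4 e5
  have h12 := (Gammaℝ_one_vs_two t).2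
  have hn1 : Gammaℝ (1 + t * I) ≠ 0 := Gammaℝ_ne_zero_of_re_pos (by simp)
  have hn2 : Gammaℝ (2 + t * I) ≠ 0 := Gammaℝ_ne_zero_of_re_pos (by simp)
  have hn4 : Gammaℝ (4 + t * I) ≠ 0 := Gammaℝ_ne_zero_of_re_pos (by simp)
  have hn6 : Gammaℝ (6 + t * I) ≠ 0 := Gammaℝ_ne_zero_of_re_pos (by simp)
  set B := |t| + 6
  have hB : 1 + |t| ≤ B := by simp only [B]; linarith
  have hB1 : 1 ≤ B := le_trans (le_add_of_nonneg_right (abs_nonneg t)) hB
  have hf : ∀ a : ℂ, ‖a‖ ≤ 6 → ‖a + t * I‖ / (2 * π) ≤ B := fun a ha => norm_add_mul_I_le a t ha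
  have hnum : ‖Gammaℝ (6 + t * I)‖ =
      ‖(4 : ℂ) + t * I‖ / (2 * π) * (‖(2 : ℂ) + t * I‖ / (2 * π)) * ‖Gammaℝ (2 + t * I)‖ := by
    have p4 := norm_pos_iff.2 hn4
    have p6 := norm_pos_iff.2 hn6
    have p2 := norm_pos_iff.2 hn2
    field_simp at e4 e5 ⊢
    linear_combination (2 * π) * e5 + ‖(4 : ℂ) + t * I‖ * e4
  rw [hnum, norm_inv, e1, e2]
  have hden : ‖Gammaℝ (2 + t * I)‖ * ‖Gammaℝ (1 + t * I)‖⁻¹ ≤ B := by
    rw [← div_eq_mul_inv, div_le_iff₀ (norm_pos_iff.2 hn1)]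
    exact h12.trans (mul_le_mul_of_nonneg_right hB (norm_nonneg _))
  have q4 := hf 4 (by norm_num)
  have q2 := hf 2 (by norm_num)
  have q3 := hf (-3) (by norm_num)
  have q1 := hf (-1) (by norm_num)
  calc _ = (‖(4 : ℂ) + t * I‖ / (2 * π)) * (‖(2 : ℂ) + t * I‖ / (2 * π)) *
        (‖-(3 : ℂ) + t * I‖ / (2 * π)) * (‖-(1 : ℂ) + t * I‖ / (2 * π)) *
        (‖Gammaℝ (2 + t * I)‖ * ‖Gammaℝ (1 + t * I)‖⁻¹) := by ring
    _ ≤ B * B * B * B * B := by gcongr
    _ ≤ _ := (le_of_eq (by ring : B * B * B * B * B = B ^ 5)).trans (pow_le_pow_right₀ hB1 (by norm_num))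

/-- `1 / Γ` grows at most exponentially in a strip. -/
theorem norm_inv_Gamma_le {w : ℂ} (h1 : -3 ≤ w.re) (h2 : w.re ≤ 7 / 2) (hy : 1 / 2 ≤ |w.im|) :
    ‖(Complex.Gamma w)⁻¹‖ ≤ Real.exp (4 * |w.im| + 20) := by
  have base : ∀ v : ℂ, -3 ≤ v.re → v.re ≤ 1 / 2 → 1 / 2 ≤ |v.im| →
      ‖(Complex.Gamma v)⁻¹‖ ≤ 6 * Real.exp (4 * |v.im|) := fun v a b c => by
    have hne : Complex.Gamma (1 - v) ≠ 0 := Complex.Gamma_ne_zero_of_re_pos (by simp; linarith)
    have h := Complex.Gamma_mul_Gamma_one_sub v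
    have hinv : (Complex.Gamma v)⁻¹ = Complex.Gamma (1 - v) * Complex.sin (π * v) / π := by
      have hG : Complex.Gamma v = π / Complex.sin (π * v) / Complex.Gamma (1 - v) := by
        rw [← h, mul_div_assoc, div_self hne, mul_one]
      rw [hG, inv_div, div_div_eq_mul_div]
    rw [hinv, norm_div, norm_mul, norm_real, Real.norm_of_nonneg Real.pi_pos.le]
    have hG : ‖Complex.Gamma (1 - v)‖ ≤ 6 := by
      refine (FA.HeckeBS.norm_Gamma_le_re (by simp; linarith)).trans ?_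
      have h4 : Real.Gamma 4 = 6 := by
        rw [show (4 : ℝ) = (3 : ℕ) + 1 by norm_num, Real.Gamma_nat_eq_factorial]; norm_num
      have h := Real.convexOn_Gamma.le_max_of_mem_Icc (show (1 / 2 : ℝ) ∈ Set.Ioi 0 by norm_num)
        (show (4 : ℝ) ∈ Set.Ioi 0 by norm_num)
        (show (1 - v).re ∈ Set.Icc (1 / 2 : ℝ) 4 from ⟨by simp; linarith, by simp; linarith⟩)
      rw [h4, Real.Gamma_one_half_eq] at h
      exact h.trans (max_le (Real.sqrt_le_iff.2 ⟨by norm_num, by linarith [Real.pi_lt_four]⟩) le_rfl)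
    have hsin : ‖Complex.sin (π * v)‖ ≤ Real.exp (4 * |v.im|) := by
      rw [Complex.sin, norm_div, norm_mul, norm_I, mul_one, RCLike.norm_ofNat]
      refine (div_le_iff₀ two_pos).2 ((norm_sub_le _ _).trans ?_)
      rw [Complex.norm_exp, Complex.norm_exp]
      have hb : ∀ x : ℝ, |x| ≤ 4 * |v.im| → Real.exp x ≤ Real.exp (4 * |v.im|) := fun x hx =>
        Real.exp_le_exp.2 ((le_abs_self x).trans hx)
      have e : |π * v.im| ≤ 4 * |v.im| := by
        rw [abs_mul, abs_of_pos Real.pi_pos]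
        exact mul_le_mul_of_nonneg_right Real.pi_lt_four.le (abs_nonneg _)
      have r1 : (-((π : ℂ) * v) * I).re = π * v.im := by simp
      have r2 : ((π : ℂ) * v * I).re = -(π * v.im) := by simp
      rw [r1, r2]
      linarith [hb _ e, hb _ (by rwa [abs_neg])]
    exact (div_le_self (by positivity) (by linarith [Real.pi_gt_three])).trans
      (mul_le_mul hG hsin (norm_nonneg _) (by norm_num))
  have h20 : (48 : ℝ) ≤ Real.exp 20 := by
    rw [show (20 : ℝ) = 10 + 10 by norm_num, Real.exp_add]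
    nlinarith [Real.add_one_le_exp (10 : ℝ)]
  rcases le_or_gt w.re (1 / 2) with hw | hw
  · refine (base w h1 hw hy).trans ?_
    rw [Real.exp_add, mul_comm]
    exact mul_le_mul_of_nonneg_left (by linarith) (Real.exp_pos _).le
  · have hstep : ∀ j : ℂ, j.im = 0 → 1 / 2 ≤ ‖w - j‖ := fun j hj => by
      refine hy.trans (le_trans (le_of_eq ?_) (Complex.abs_im_le_norm _))
      rw [sub_im, hj, sub_zero]
    have e : (Complex.Gamma w)⁻¹ = (Complex.Gamma (w - 3))⁻¹ / ((w - 3) * ((w - 2) * (w - 1))) := by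
      have hne : ∀ j : ℂ, j.im = 0 → w - j ≠ 0 := fun j hj h0 => by
        have := hstep j hj; rw [h0, norm_zero] at this; linarith
      rw [one_div_Gamma_eq_self_mul_one_div_Gamma_add_one (w - 3), show w - 3 + 1 = w - 2 by ring,
        one_div_Gamma_eq_self_mul_one_div_Gamma_add_one (w - 2), show w - 2 + 1 = w - 1 by ring,
        one_div_Gamma_eq_self_mul_one_div_Gamma_add_one (w - 1), sub_add_cancel]
      have := hne 3 (by simp); have := hne 2 (by simp); have := hne 1 (by simp)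
      field_simp
    rw [e, norm_div, norm_mul, norm_mul]
    have hb := base (w - 3) (by simp; linarith) (by simp; linarith) (by simpa using hy)
    simp only [sub_im, im_ofNat, sub_zero] at hb
    have hden : 1 / 8 ≤ ‖w - 3‖ * (‖w - 2‖ * ‖w - 1‖) := by
      calc (1 / 8 : ℝ) = 1 / 2 * (1 / 2 * (1 / 2)) := by norm_num
        _ ≤ _ := mul_le_mul (hstep 3 (by simp)) (mul_le_mul (hstep 2 (by simp)) (hstep 1 (by simp))
            (by norm_num) (norm_nonneg _)) (by norm_num) (norm_nonneg _)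
    refine (div_le_div₀ (by positivity) hb (by norm_num) hden).trans ?_
    rw [Real.exp_add, show (6 : ℝ) * Real.exp (4 * |w.im|) / (1 / 8) = Real.exp (4 * |w.im|) * 48 by ring]
    exact mul_le_mul_of_nonneg_left h20 (Real.exp_pos _).le

/-- `1 / Γℝ` grows at most exponentially. -/
theorem norm_inv_Gammaℝ_le {z : ℂ} (h1 : -6 ≤ z.re) (h2 : z.re ≤ 7) (ht : 1 ≤ |z.im|) :
    ‖(Gammaℝ z)⁻¹‖ ≤ Real.exp (2 * |z.im| + 30) := by
  rw [Gammaℝ_def, mul_inv, norm_mul, norm_inv, norm_cpow_eq_rpow_re_of_pos Real.pi_pos,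
    ← Real.rpow_neg Real.pi_pos.le]
  have hG := norm_inv_Gamma_le (w := z / 2) (by simp; linarith) (by simp; linarith) (by
    rw [div_ofNat_im, abs_div, Nat.abs_ofNat]; linarith)
  rw [div_ofNat_im, abs_div, Nat.abs_ofNat] at hG
  have hp : π ^ (-(-z / 2).re) ≤ Real.exp 10 := by
    rw [Real.rpow_def_of_pos Real.pi_pos]
    refine Real.exp_le_exp.2 ?_
    have hl : 0 ≤ Real.log π := Real.log_nonneg (by linarith [Real.pi_gt_three])
    have hl2 : Real.log π ≤ 2 := by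
      rw [Real.log_le_iff_le_exp Real.pi_pos]
      have := Real.add_one_le_exp (1 : ℝ)
      rw [show (2 : ℝ) = 1 + 1 by norm_num, Real.exp_add]
      nlinarith [Real.pi_lt_four]
    simp only [div_ofNat_re, neg_re]
    nlinarith
  refine (mul_le_mul hp hG (norm_nonneg _) (Real.exp_pos _).le).trans ?_
  rw [← Real.exp_add]
  exact Real.exp_le_exp.2 (by linarith)

end FA.DedekindZF
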