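import Fermat.Agent.DedekindZeroFree.Gamma
import Fermat.Agent.HeckeBS.EulerBound
import Fermat.Agent.HeckeBS.Residue
import Fermat.Agent.ZetaDivisibility.Quotient
import Mathlib.Analysis.Complex.PhragmenLindelof
import Mathlib.Analysis.SpecialFunctions.Log.PosLog

/-!
# Polynomial growth of a Dedekind zeta function in `-4 ≤ re s ≤ 5`

The functional equation gives the left edge, the Euler product the right one, and the principle of
Phragmén and Lindelöf the inside: `log⁺ |(s - 1) ζ_K s| ≤ A (1 + log |d| + n log (|t| + 3))`.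
-/

set_option autoImplicit false
set_option linter.style.haveILetI false

noncomputable section

universe u

open NumberField InfinitePlace Module Complex Filter Topology Set Asymptotics
open FA.HeckeBS FA.HeckeFE
open scoped Real Classical ComplexConjugate

namespace FA.DedekindZF

variable (K : Type u) [Field K] [NumberField K]

/-- `1 + log |d| + n log (|t| + 3)`. -/
def height (t : ℝ) : ℝ :=
  1 + Real.log (((discr K).natAbs : ℕ) : ℝ) + finrank ℚ K * Real.log (|t| + 3)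

theorem one_le_log (t : ℝ) : 1 ≤ Real.log (|t| + 3) := by
  rw [Real.le_log_iff_exp_le (by positivity)]
  linarith [Real.exp_one_lt_d9, abs_nonneg t]

theorem finrank_le_height (t : ℝ) : (finrank ℚ K : ℝ) ≤ height K t := by
  have h := le_mul_of_one_le_right (Nat.cast_nonneg (finrank ℚ K) : (0 : ℝ) ≤ _) (one_le_log t)
  have hd : 0 ≤ Real.log (((discr K).natAbs : ℕ) : ℝ) :=
    Real.log_nonneg (Nat.one_le_cast.2 (Int.natAbs_pos.2 (discr_ne_zero K)))
  rw [height]; linarith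

theorem one_le_height (t : ℝ) : 1 ≤ height K t :=
  le_trans (Nat.one_le_cast.2 finrank_pos) (finrank_le_height K t)

/-- The reciprocal of the Gamma factor, entire. -/
def ginv (s : ℂ) : ℂ :=
  (((discr K).natAbs : ℕ) : ℂ) ^ (-(s / 2)) *
    ((Gammaℝ s)⁻¹ ^ nrRealPlaces K * ((Gammaℝ s)⁻¹ * (Gammaℝ (s + 1))⁻¹) ^ nrComplexPlaces K)

theorem differentiable_ginv : Differentiable ℂ (ginv K) := by
  have h1 : Differentiable ℂ fun s : ℂ => (Gammaℝ (s + 1))⁻¹ :=
    differentiable_Gammaℝ_inv.comp (differentiable_id.add_const 1)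
  exact (Differentiable.const_cpow (differentiable_id.div_const 2).neg
    (Or.inl (discr_natAbs_ne_zero K))).mul
    ((differentiable_Gammaℝ_inv.pow _).mul ((differentiable_Gammaℝ_inv.mul h1).pow _))

/-- The identity. -/
theorem mul_cleared_eq {E : ℂ → ℂ} (hE : Differentiable ℂ E)
    (hEL : ∀ s : ℂ, 1 < s.re → E s = (s - 1) * dedekindZeta K s) (s : ℂ) :
    s * E s = xiFun K s * ginv K s := by
  refine congrFun (FA.ZetaDivisibility.eq_of_eqOn_halfPlane (f := fun z => z * E z)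
    (g := fun z => xiFun K z * ginv K z) (differentiable_id.mul hE)
    ((differentiable_xiFun K).mul (differentiable_ginv K)) fun z hz => ?_) s
  have h0 : 0 < z.re := by linarith
  have h1 : 0 < (z + 1).re := by simp only [add_re, one_re]; linarith
  have hG := Gammaℝ_ne_zero_of_re_pos h0
  have hG1 := Gammaℝ_ne_zero_of_re_pos h1
  have hd : (((discr K).natAbs : ℕ) : ℂ) ^ (z / 2) ≠ 0 :=
    cpow_ne_zero_iff.2 (Or.inl (discr_natAbs_ne_zero K))
  rw [hEL z hz, xiFun_half K hz, gamFac, ginv, ← Gammaℝ_mul_Gammaℝ_add_one, cpow_neg, inv_pow,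
    mul_pow, mul_pow, inv_pow, inv_pow]
  field_simp

theorem norm_Gammaℝ_conj (z : ℂ) : ‖Gammaℝ (conj z)‖ = ‖Gammaℝ z‖ := by
  rw [Gammaℝ_def, Gammaℝ_def, norm_mul, norm_mul, norm_cpow_eq_rpow_re_of_pos Real.pi_pos,
    norm_cpow_eq_rpow_re_of_pos Real.pi_pos, show conj z / 2 = conj (z / 2) by
      rw [map_div₀, map_ofNat],
    Complex.Gamma_conj, Complex.norm_conj]
  congr 2
  simp

theorem norm_natAbs_cpow (s : ℂ) :
    ‖(((discr K).natAbs : ℕ) : ℂ) ^ s‖ = (((discr K).natAbs : ℕ) : ℝ) ^ s.re := by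
  rw [← ofReal_natCast, norm_cpow_eq_rpow_re_of_pos (Nat.cast_pos.2 (Int.natAbs_pos.2 (discr_ne_zero K)))]

/-- `d ^ 5 exp (n P 5)`. -/
def edgeM : ℝ := (((discr K).natAbs : ℕ) : ℝ) ^ (5 : ℕ) * Real.exp (finrank ℚ K * eulerConst 5)

theorem one_le_edgeM : 1 ≤ edgeM K :=
  one_le_mul_of_one_le_of_one_le (one_le_pow₀ (Nat.one_le_cast.2 (Int.natAbs_pos.2 (discr_ne_zero K))))
    (Real.one_le_exp (mul_nonneg (Nat.cast_nonneg _)
      (mul_nonneg zero_le_two (tsum_nonneg fun _ => Real.rpow_nonneg (Nat.cast_nonneg _) _))))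

/-- The left edge. -/
theorem norm_cleared_neg_four {E : ℂ → ℂ} (hE : Differentiable ℂ E)
    (hEL : ∀ s : ℂ, 1 < s.re → E s = (s - 1) * dedekindZeta K s) {z : ℂ} (hz : z.re = -4) :
    ‖E z‖ ≤ edgeM K * (|z.im| + 6) ^ (7 * finrank ℚ K) := by
  set t := z.im
  set B := |t| + 6
  have hB : 1 ≤ B := by simp only [B]; linarith [abs_nonneg t]
  have hz0 : z ≠ 0 := fun h => by rw [h] at hz; simp at hz
  have hzI : z = -4 + t * I := by
    apply Complex.ext <;> simp [hz, t]
  have hre : 1 < (1 - z).re := by rw [sub_re, one_re, hz]; norm_num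
  have hre5 : (1 - z).re = 5 := by rw [sub_re, one_re, hz]; norm_num
  have h := congrArg norm (mul_cleared_eq K hE hEL z)
  rw [← xiFun_one_sub, xiFun_half K hre, gamFac, ginv, ← Gammaℝ_mul_Gammaℝ_add_one, norm_mul] at h
  simp only [norm_mul, norm_pow, norm_natAbs_cpow, show ‖1 - z - 1‖ = ‖z‖ by
    rw [show 1 - z - 1 = -z by ring, norm_neg]] at h
  have hz' := (norm_dedekindZeta_bounds (K := K) hre).2
  rw [hre5] at hz'
  have c1 : ‖Gammaℝ (1 - z)‖ = ‖Gammaℝ (5 + t * I)‖ := by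
    rw [← norm_Gammaℝ_conj]; congr 2; apply Complex.ext <;> simp [hz, t] <;> norm_num
  have c2 : ‖Gammaℝ (1 - z + 1)‖ = ‖Gammaℝ (6 + t * I)‖ := by
    rw [← norm_Gammaℝ_conj]; congr 2; apply Complex.ext <;> simp [hz, t] <;> norm_num
  have c3 : z + 1 = -3 + t * I := by rw [hzI]; ring
  rw [c1, c2, c3] at h
  rw [show ‖(Gammaℝ z)⁻¹‖ = ‖(Gammaℝ (-4 + t * I))⁻¹‖ by rw [← hzI]] at h
  have r5 := ratio_five t
  have r6 := ratio_six t
  set a := ‖Gammaℝ (5 + t * I)‖
  set a' := ‖(Gammaℝ (-4 + t * I))⁻¹‖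
  set b := ‖Gammaℝ (6 + t * I)‖
  set b' := ‖(Gammaℝ (-3 + t * I))⁻¹‖
  set d : ℝ := (((discr K).natAbs : ℕ) : ℝ)
  have hd1 : 1 ≤ d := Nat.one_le_cast.2 (Int.natAbs_pos.2 (discr_ne_zero K))
  have hd0 : 0 < d := zero_lt_one.trans_le hd1
  have hzn : 0 < ‖z‖ := norm_pos_iff.2 hz0
  have hE' : ‖E z‖ = ‖1 - z‖ * (d ^ ((1 - z) / 2).re * d ^ (-(z / 2)).re) *
      ((a * a') ^ nrRealPlaces K * ((a * a') * (b * b')) ^ nrComplexPlaces K) * ‖dedekindZeta K (1 - z)‖ := by
    refine mul_left_cancel₀ hzn.ne' (h.trans ?_)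
    simp only [mul_pow]
    ring
  have hdp : d ^ ((1 - z) / 2).re * d ^ (-(z / 2)).re ≤ d ^ (5 : ℕ) := by
    rw [← Real.rpow_add hd0, ← Real.rpow_natCast]
    refine Real.rpow_le_rpow_of_exponent_le hd1 ?_
    simp [hz]; norm_num
  have haa : a * a' ≤ B ^ 6 := r5
  have hbb : b * b' ≤ B ^ 6 := r6
  have hplaces := card_add_two_mul_card_eq_rank K
  have hG : (a * a') ^ nrRealPlaces K * ((a * a') * (b * b')) ^ nrComplexPlaces K ≤
      B ^ (6 * finrank ℚ K) := by
    calc (a * a') ^ nrRealPlaces K * ((a * a') * (b * b')) ^ nrComplexPlaces K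
        ≤ (B ^ 6) ^ nrRealPlaces K * (B ^ 6 * B ^ 6) ^ nrComplexPlaces K := by
          gcongr
      _ = _ := by
          rw [← pow_add, ← pow_mul, ← pow_mul, ← pow_add]
          congr 1
          omega
  have h1z : ‖1 - z‖ ≤ B := by
    refine (Complex.norm_le_abs_re_add_abs_im _).trans ?_
    simp [hz, B, t]; norm_num; linarith
  rw [hE', edgeM]
  calc _ ≤ B * d ^ (5 : ℕ) * B ^ (6 * finrank ℚ K) * Real.exp (finrank ℚ K * eulerConst 5) :=
        mul_le_mul (mul_le_mul (mul_le_mul h1z hdp (by positivity) (by linarith)) hG (by positivity)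
          (by positivity)) hz' (norm_nonneg _) (by positivity)
    _ = d ^ (5 : ℕ) * Real.exp (finrank ℚ K * eulerConst 5) * B ^ (6 * finrank ℚ K + 1) := by ring
    _ ≤ _ := mul_le_mul_of_nonneg_left
        (pow_le_pow_right₀ hB (by have := finrank_pos (R := ℚ) (M := K); omega)) (by positivity)

/-- The right edge. -/
theorem norm_cleared_five {E : ℂ → ℂ}
    (hEL : ∀ s : ℂ, 1 < s.re → E s = (s - 1) * dedekindZeta K s) {z : ℂ} (hz : z.re = 5) :
    ‖E z‖ ≤ edgeM K * (|z.im| + 6) ^ (7 * finrank ℚ K) := by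
  have hre : 1 < z.re := by rw [hz]; norm_num
  rw [hEL z hre, norm_mul]
  have hz' := (norm_dedekindZeta_bounds (K := K) hre).2
  rw [hz] at hz'
  have h1 : ‖z - 1‖ ≤ (|z.im| + 6) ^ (7 * finrank ℚ K) := by
    refine le_trans ?_ (le_self_pow₀ (by linarith [abs_nonneg z.im])
      (by have := finrank_pos (R := ℚ) (M := K); omega))
    refine (Complex.norm_le_abs_re_add_abs_im _).trans ?_
    simp [hz]; norm_num; linarith
  rw [mul_comm]
  refine mul_le_mul (hz'.trans ?_) h1 (norm_nonneg _) (zero_le_one.trans (one_le_edgeM K))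
  exact le_mul_of_one_le_left (Real.exp_pos _).le
    (one_le_pow₀ (Nat.one_le_cast.2 (Int.natAbs_pos.2 (discr_ne_zero K))))

/-- A crude bound, for Phragmén–Lindelöf. -/
theorem exists_crude_bound {E : ℂ → ℂ} (hE : Differentiable ℂ E)
    (hEL : ∀ s : ℂ, 1 < s.re → E s = (s - 1) * dedekindZeta K s) :
    ∃ A : ℝ, 0 ≤ A ∧ ∀ z : ℂ, z.re ∈ Icc (-4) 5 → 1 ≤ |z.im| → ‖E z‖ ≤ Real.exp (A * (1 + |z.im|)) := by
  obtain ⟨C, hC, hB⟩ := exists_xiFun_bound K (-4) 5
  set d : ℝ := (((discr K).natAbs : ℕ) : ℝ)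
  have hd1 : 1 ≤ d := Nat.one_le_cast.2 (Int.natAbs_pos.2 (discr_ne_zero K))
  refine ⟨|Real.log (C * d ^ (2 : ℕ))| + 30 * finrank ℚ K + 2, by positivity, fun z hz hy => ?_⟩
  have hz1 : 1 ≤ ‖z‖ := hy.trans (Complex.abs_im_le_norm z)
  have hx := hB z hz
  have hg : ‖ginv K z‖ ≤ d ^ (2 : ℕ) * Real.exp (finrank ℚ K * (2 * |z.im| + 30)) := by
    have g0 := norm_inv_Gammaℝ_le (z := z) (by linarith [hz.1]) (by linarith [hz.2]) hy
    have g1 := norm_inv_Gammaℝ_le (z := z + 1) (by simp; linarith [hz.1]) (by simp; linarith [hz.2])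
      (by simpa using hy)
    simp only [add_im, one_im, add_zero] at g1
    rw [ginv, norm_mul, norm_mul, norm_pow, norm_pow, norm_mul, norm_natAbs_cpow]
    refine mul_le_mul ?_ ?_ (by positivity) (by positivity)
    · rw [← Real.rpow_natCast]
      refine Real.rpow_le_rpow_of_exponent_le hd1 ?_
      simp only [neg_re, div_ofNat_re]; push_cast; linarith [hz.1]
    · calc _ ≤ Real.exp (2 * |z.im| + 30) ^ nrRealPlaces K *
            (Real.exp (2 * |z.im| + 30) * Real.exp (2 * |z.im| + 30)) ^ nrComplexPlaces K := by gcongr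
        _ = _ := by
          rw [← Real.exp_add, ← Real.exp_nat_mul, ← Real.exp_nat_mul, ← Real.exp_add,
            ← card_add_two_mul_card_eq_rank K]
          push_cast
          ring_nf
  have h := congrArg norm (mul_cleared_eq K hE hEL z)
  rw [norm_mul, norm_mul] at h
  have hsq : (1 + |z.im|) ^ 2 ≤ Real.exp (2 * |z.im|) := by
    rw [two_mul, Real.exp_add, ← sq]
    exact pow_le_pow_left₀ (by positivity) (by linarith [Real.add_one_le_exp |z.im|]) 2
  calc ‖E z‖ ≤ ‖z‖ * ‖E z‖ := le_mul_of_one_le_left (norm_nonneg _) hz1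
    _ = ‖xiFun K z‖ * ‖ginv K z‖ := h
    _ ≤ C * Real.exp (2 * |z.im|) * (d ^ (2 : ℕ) * Real.exp (finrank ℚ K * (2 * |z.im| + 30))) :=
        mul_le_mul (hx.trans (mul_le_mul_of_nonneg_left hsq hC.le)) hg (norm_nonneg _) (by positivity)
    _ = Real.exp (Real.log (C * d ^ (2 : ℕ)) + 2 * |z.im| + finrank ℚ K * (2 * |z.im| + 30)) := by
        rw [Real.exp_add, Real.exp_add, Real.exp_log (by positivity)]; ring
    _ ≤ _ := Real.exp_le_exp.2 (by
        nlinarith [le_abs_self (Real.log (C * d ^ (2 : ℕ))), abs_nonneg z.im,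
          mul_nonneg (abs_nonneg (Real.log (C * d ^ (2 : ℕ)))) (abs_nonneg z.im),
          mul_nonneg (Nat.cast_nonneg (finrank ℚ K) : (0 : ℝ) ≤ _) (abs_nonneg z.im)])

/-- The constant of the growth bound. -/
def growA : ℝ := eulerConst 5 + 33

/-- **Polynomial growth.** -/
theorem posLog_cleared_le {E : ℂ → ℂ} (hE : Differentiable ℂ E)
    (hEL : ∀ s : ℂ, 1 < s.re → E s = (s - 1) * dedekindZeta K s) {z : ℂ} (hz : z.re ∈ Icc (-4) 5) :
    Real.posLog ‖E z‖ ≤ growA * height K z.im := by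
  set k := 7 * finrank ℚ K with hk
  set h : ℂ → ℂ := fun w => E w / (w + 12) ^ k
  have hne : ∀ w : ℂ, -4 ≤ w.re → w + 12 ≠ 0 := fun w hw h0 => by
    have := congrArg Complex.re h0; simp at this; linarith
  have hh : DiffContOnCl ℂ h (re ⁻¹' Ioo (-4 : ℝ) 5) := by
    refine DifferentiableOn.diffContOnCl fun w hw => ?_
    refine ((hE w).div (((differentiableAt_id).add_const 12).pow k)
      (pow_ne_zero _ (hne w ?_))).differentiableWithinAt
    have := closure_minimal (preimage_mono Ioo_subset_Icc_self) (isClosed_Icc.preimage continuous_re) hw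
    exact this.1
  have hB : |z.im| + 6 ≤ 2 * ‖z + 12‖ := by
    have h1 := Complex.abs_re_le_norm (z + 12)
    have h2 := Complex.abs_im_le_norm (z + 12)
    simp only [add_re, re_ofNat, add_im, im_ofNat, add_zero] at h1 h2
    have h3 : 8 ≤ |z.re + 12| := le_abs.2 (Or.inl (by linarith [hz.1]))
    linarith
  have hedge : ∀ w : ℂ, (w.re = -4 ∨ w.re = 5) → ‖h w‖ ≤ edgeM K * 2 ^ k := fun w hw => by
    have hb : ‖E w‖ ≤ edgeM K * (|w.im| + 6) ^ k := by
      rcases hw with hw | hw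
      · exact norm_cleared_neg_four K hE hEL hw
      · exact norm_cleared_five K hEL hw
    have hge : |w.im| + 6 ≤ 2 * ‖w + 12‖ := by
      have h1 := Complex.abs_re_le_norm (w + 12)
      have h2 := Complex.abs_im_le_norm (w + 12)
      simp only [add_re, re_ofNat, add_im, im_ofNat, add_zero] at h1 h2
      have h3 : 8 ≤ |w.re + 12| := le_abs.2 (Or.inl (by rcases hw with hw | hw <;> linarith))
      linarith
    rw [norm_div, norm_pow, div_le_iff₀ (pow_pos (norm_pos_iff.2 (hne w (by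
      rcases hw with hw | hw <;> linarith))) k), mul_assoc, ← mul_pow]
    exact hb.trans (mul_le_mul_of_nonneg_left (pow_le_pow_left₀ (by positivity) hge _)
      (zero_le_one.trans (one_le_edgeM K)))
  have hbig : ∃ c < π / (5 - -4), ∃ B, h =O[comap (_root_.abs ∘ im) atTop ⊓ 𝓟 (re ⁻¹' Ioo (-4 : ℝ) 5)]
      fun w => Real.exp (B * Real.exp (c * |w.im|)) := by
    obtain ⟨A, hA, hcr⟩ := exists_crude_bound K hE hEL
    refine ⟨1 / 4, by rw [lt_div_iff₀ (by norm_num)]; linarith [Real.pi_gt_three], 4 * A, ?_⟩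
    refine IsBigO.of_bound 1 (Filter.eventually_inf_principal.2
      (((Filter.eventually_ge_atTop (1 : ℝ)).comap _).mono fun w hw hre => ?_))
    rw [one_mul, Real.norm_of_nonneg (Real.exp_pos _).le, norm_div, norm_pow]
    refine (div_le_self (norm_nonneg _) (one_le_pow₀ ?_)).trans
      ((hcr w ⟨hre.1.le, hre.2.le⟩ hw).trans (Real.exp_le_exp.2 ?_))
    · have h1 := Complex.abs_re_le_norm (w + 12)
      simp only [add_re, re_ofNat] at h1
      linarith [le_abs_self (w.re + 12), hre.1]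
    · have := Real.add_one_le_exp (1 / 4 * |w.im|)
      rw [mul_comm 4 A, mul_assoc]
      exact mul_le_mul_of_nonneg_left (by linarith) hA
  have hPL := PhragmenLindelof.vertical_strip hh hbig (fun w hw => hedge w (Or.inl hw))
    (fun w hw => hedge w (Or.inr hw)) hz.1 hz.2
  rw [norm_div, norm_pow, div_le_iff₀ (pow_pos (norm_pos_iff.2 (hne z hz.1)) k), mul_assoc, ← mul_pow]
    at hPL
  have hX : 1 ≤ 2 * ‖z + 12‖ := le_trans (by linarith [abs_nonneg z.im]) hB
  have hM : 1 ≤ edgeM K * (2 * ‖z + 12‖) ^ k :=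
    one_le_mul_of_one_le_of_one_le (one_le_edgeM K) (one_le_pow₀ hX)
  refine (Real.posLog_le_posLog (norm_nonneg _) hPL).trans ?_
  rw [Real.posLog_eq_log (by rwa [abs_of_nonneg (zero_le_one.trans hM)]), Real.log_mul
    (zero_lt_one.trans_le (one_le_edgeM K)).ne' (pow_pos (by linarith) k).ne', Real.log_pow, edgeM,
    Real.log_mul (pow_ne_zero _ (Nat.cast_ne_zero.2 (Int.natAbs_ne_zero.2 (discr_ne_zero K))))
      (Real.exp_pos _).ne', Real.log_pow, Real.log_exp]
  set T := Real.log (|z.im| + 3)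
  have hT : 1 ≤ T := one_le_log _
  have hlog : Real.log (2 * ‖z + 12‖) ≤ 4 * T := by
    have h4 : 2 * ‖z + 12‖ ≤ (|z.im| + 3) ^ 4 := by
      have h1 := Complex.norm_le_abs_re_add_abs_im (z + 12)
      simp only [add_re, re_ofNat, add_im, im_ofNat, add_zero] at h1
      have h3 : |z.re + 12| ≤ 17 := abs_le.2 ⟨by linarith [hz.1], by linarith [hz.2]⟩
      nlinarith [abs_nonneg z.im, sq_nonneg (|z.im|), mul_nonneg (abs_nonneg z.im) (sq_nonneg (|z.im| + 6))]
    refine (Real.log_le_log (by linarith) h4).trans (le_of_eq ?_)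
    rw [Real.log_pow]; norm_num [T]
  set D := Real.log (((discr K).natAbs : ℕ) : ℝ)
  have hD : 0 ≤ D := Real.log_nonneg (Nat.one_le_cast.2 (Int.natAbs_pos.2 (discr_ne_zero K)))
  have hE5 : 0 ≤ eulerConst 5 :=
    mul_nonneg zero_le_two (tsum_nonneg fun _ => Real.rpow_nonneg (Nat.cast_nonneg _) _)
  have hn : (0 : ℝ) ≤ finrank ℚ K := Nat.cast_nonneg _
  have h1 := mul_le_mul_of_nonneg_left hlog hn
  have h2 := mul_le_mul_of_nonneg_left hT (mul_nonneg hn hE5)
  rw [height, growA, hk]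
  push_cast
  nlinarith [mul_nonneg hn (zero_le_one.trans hT), mul_nonneg hE5 hD]

end FA.DedekindZF
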